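import Fermat.Agent.LLu.BadData
import Fermat.Agent.TorsInj.DeuringTors

/-!
# Hecke relations on the residues of functions with divisor divisible by `n`
-/

set_option autoImplicit false
set_option maxHeartbeats 400000

noncomputable section

open HahnSeries ModularCurve Module AlgebraicCurve

namespace Fermat.Agent.LLu

open Fermat.Agent.Igusa Fermat.Agent.AtkinLehner Fermat.Agent.BadRed Fermat.Agent.HeckeRed
  Fermat.Agent.FunField Fermat.Agent.FunField.PlaceLemmas Fermat.Agent.Deuring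

section Abstract

variable {L k F F₁ : Type*} [Field L] [Field k] [Field F] [Field F₁] [Algebra L F]
  [Algebra k F₁] [IsFF L F] [IsFF k F₁] [IsAlgClosed L] [IsAlgClosed k]

theorem divOf_zpow {K E : Type*} [Field K] [Field E] [Algebra K E] [IsFF K E] (f : E) (a : ℤ) :
    (divOf (f ^ a) : Divisor K E) = a • divOf f := by
  ext v
  rw [Finsupp.smul_apply, divOf_apply, divOf_apply, v.ord_zpow, smul_eq_mul]

/-- Reduction of a multiplicative relation between functions. -/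
theorem exists_res_relation (𝔇 : Data L k F F₁) {f g : 𝔇.O} (hf : 𝔇.res f ≠ 0)
    (hg : 𝔇.res g ≠ 0) {h : F} (hh : h ≠ 0) (a b : ℤ)
    (hrel : (divOf (g : F) : Divisor L F) = a • divOf (f : F) + b • divOf h) :
    ∃ hb : F₁, hb ≠ 0 ∧ ∃ c : k, c ≠ 0 ∧
      𝔇.res g = algebraMap k F₁ c * (𝔇.res f) ^ a * hb ^ b := by
  classical
  obtain ⟨c₀, hc₀, hcO, hcres⟩ := 𝔇.exists_smul_res_ne_zero hh
  have hu : ∀ x : 𝔇.O, 𝔇.res x ≠ 0 → IsUnit x := fun x hx => by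
    by_contra hcon
    exact hx ((𝔇.res_ker x).mpr hcon)
  obtain ⟨uf, huf⟩ := hu f hf
  obtain ⟨ug, hug⟩ := hu g hg
  obtain ⟨uh, huh⟩ := hu _ hcres
  let φ : 𝔇.Oˣ →* F₁ˣ := Units.map (𝔇.res : 𝔇.O →* F₁)
  let ψ : 𝔇.Oˣ →* Fˣ := Units.map (𝔇.O.subtype : 𝔇.O →* F)
  let w : 𝔇.Oˣ := ug * uf ^ (-a) * uh ^ (-b)
  have hψw : ((ψ w : Fˣ) : F) = (g : F) * (f : F) ^ (-a) * (c₀ • h) ^ (-b) := by
    simp only [w, map_mul, map_zpow, Units.val_mul, Units.val_zpow_eq_zpow_val]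
    have e1 : ((ψ ug : Fˣ) : F) = g := by rw [← hug]; rfl
    have e2 : ((ψ uf : Fˣ) : F) = f := by rw [← huf]; rfl
    have e3 : ((ψ uh : Fˣ) : F) = c₀ • h := by
      show ((uh : 𝔇.O) : F) = _
      rw [huh]
    rw [e1, e2, e3]
  have hf0 : (f : F) ≠ 0 := 𝔇.coe_ne_zero_of_res_ne_zero hf
  have hg0 : (g : F) ≠ 0 := 𝔇.coe_ne_zero_of_res_ne_zero hg
  have hch0 : c₀ • h ≠ 0 := smul_ne_zero hc₀ hh
  have hdiv : (divOf ((ψ w : Fˣ) : F) : Divisor L F) = 0 := by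
    have e4 : (divOf (c₀ • h) : Divisor L F) = divOf h := by
      rw [Algebra.smul_def, TorsInj.divOf_mul (by simpa using hc₀) hh, TorsInj.divOf_algebraMap,
        zero_add]
    rw [hψw, TorsInj.divOf_mul (mul_ne_zero hg0 (zpow_ne_zero _ hf0)) (zpow_ne_zero _ hch0),
      TorsInj.divOf_mul hg0 (zpow_ne_zero _ hf0), divOf_zpow, divOf_zpow, hrel, e4]
    module
  obtain ⟨d, hd⟩ : ∃ d : L, algebraMap L F d = ((ψ w : Fˣ) : F) := by
    apply exists_eq_algebraMap_of_forall_ord_nonneg (K := L)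
    intro v
    rw [← divOf_apply, hdiv, Finsupp.zero_apply]
  have hdA : d ∈ 𝔇.A := by
    rw [← 𝔇.mem_iff, hd]
    exact (w : 𝔇.O).2
  have hwd : (w : 𝔇.O) = 𝔇.cst ⟨d, hdA⟩ := Subtype.ext (by rw [Data.coe_cst, hd]; rfl)
  refine ⟨𝔇.res ⟨c₀ • h, hcO⟩, hcres, 𝔇.π ⟨d, hdA⟩, ?_, ?_⟩
  · intro h0
    have h1 : 𝔇.res (w : 𝔇.O) = 0 := by rw [hwd, Data.res_cst, h0, map_zero]
    exact ((φ w).ne_zero) h1
  · have h1 : ((φ w : F₁ˣ) : F₁) = algebraMap k F₁ (𝔇.π ⟨d, hdA⟩) := by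
      show 𝔇.res (w : 𝔇.O) = _
      rw [hwd, Data.res_cst]
    have h2 : ((φ w : F₁ˣ) : F₁) = 𝔇.res g * (𝔇.res f) ^ (-a) * (𝔇.res ⟨c₀ • h, hcO⟩) ^ (-b) := by
      simp only [w, map_mul, map_zpow, Units.val_mul, Units.val_zpow_eq_zpow_val]
      have e1 : ((φ ug : F₁ˣ) : F₁) = 𝔇.res g := by rw [← hug]; rfl
      have e2 : ((φ uf : F₁ˣ) : F₁) = 𝔇.res f := by rw [← huf]; rfl
      have e3 : ((φ uh : F₁ˣ) : F₁) = 𝔇.res ⟨c₀ • h, hcO⟩ := by
        show 𝔇.res (uh : 𝔇.O) = _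
        rw [huh]
      rw [e1, e2, e3]
    rw [← h1, h2, zpow_neg, zpow_neg]
    have h3 : 𝔇.res f ^ a ≠ 0 := zpow_ne_zero _ hf
    have h4 : 𝔇.res ⟨c₀ • h, hcO⟩ ^ b ≠ 0 := zpow_ne_zero _ hcres
    field_simp

end Abstract

section Hecke

variable {L : Type*} [Field L] [IsAlgClosed L] [CharZero L] (A : ValuationSubring L)
  {κ : Type*} [Field κ] [IsAlgClosed κ] (π : A →+* κ) [IsLocalHom π]
  (hπ : Function.Surjective π) (harch : ArchA π)
  (N r : ℕ) [hr : Fact r.Prime] [hN : NeZero N] [CharP κ r] (hrN : ¬ r ∣ N)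

/-- The two ratios of degrees of degeneracy maps agree. -/
theorem finrank_ratio {l : ℕ} [hl : Fact l.Prime] (hlr : l ≠ r) (hrN : ¬ r ∣ N)
    {E E' : IntermediateField L (LaurentSeries L)}
    {E₁ E₁' : IntermediateField κ (LaurentSeries κ)}
    (hE : E = modularFunctionFieldFullC L (N * r))
    (hE' : E' = modularFunctionFieldFullC L (N * r * l))
    (hE₁ : E₁ = modularFunctionFieldFullC κ N) (hE₁' : E₁' = modularFunctionFieldFullC κ (N * l))
    (hκ : ((N * l : ℕ) : κ) ≠ 0)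
    (α : E →ₐ[L] E') (α₁ : E₁ →ₐ[κ] E₁')
    (hα : ∀ x, (α x : LaurentSeries L) = x) (hα₁ : ∀ x, (α₁ x : LaurentSeries κ) = x) :
    finrankAlong L α = finrankAlong κ α₁ := by
  have : NeZero (N * r) := ⟨mul_ne_zero hN.out hr.out.ne_zero⟩
  have h1 := finrankAlong_alpha hE hE' α hα
    (Nat.cast_ne_zero.mpr (mul_ne_zero (mul_ne_zero hN.out hr.out.ne_zero) hl.out.ne_zero))
  have h2 := finrankAlong_alpha hE₁ hE₁' α₁ hα₁ hκ
  have h3 : ¬ r ∣ N * l := by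
    rw [hr.out.dvd_mul]
    rintro (h | h)
    · exact hrN h
    · exact hlr ((Nat.prime_dvd_prime_iff_eq hr.out hl.out).mp h).symm
  rw [ModDeg.psi_mul_prime_of_not_dvd hr.out hrN, show N * r * l = N * l * r by ring,
    ModDeg.psi_mul_prime_of_not_dvd hr.out h3, ← h2] at h1
  have h4 : 0 < (r + 1) * dedekindPsi N := Nat.mul_pos (Nat.succ_pos r) (dedekindPsi_pos N)
  refine Nat.eq_of_mul_eq_mul_right h4 ?_
  rw [h1]
  ring

include hπ harch hrN in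
/-- **Hecke relations pass to the residue at the Gauss valuation.** -/
theorem hres {l : ℕ} [hl : Fact l.Prime] (hlr : l ≠ r) (hlκ : ((N * l : ℕ) : κ) ≠ 0)
    {E E' : IntermediateField L (LaurentSeries L)} [IsFF L E] [IsFF L E']
    {E₁ E₁' : IntermediateField κ (LaurentSeries κ)} [IsFF κ E₁] [IsFF κ E₁']
    (hE : E = modularFunctionFieldFullC L (N * r))
    (hE' : E' = modularFunctionFieldFullC L (N * r * l))
    (hE₁ : E₁ = modularFunctionFieldFullC κ N) (hE₁' : E₁' = modularFunctionFieldFullC κ (N * l))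
    (α β : E →ₐ[L] E') (α₁ β₁ : E₁ →ₐ[κ] E₁')
    (hα : ∀ x, (α x : LaurentSeries L) = x)
    (hβ : ∀ x, (β x : LaurentSeries L) = qExpand L l (x : LaurentSeries L))
    (hα₁ : ∀ x, (α₁ x : LaurentSeries κ) = x)
    (hβ₁ : ∀ x, (β₁ x : LaurentSeries κ) = qExpand κ l (x : LaurentSeries κ))
    (hβi : β.toRingHom.IsIntegral) (hαi : α.toRingHom.IsIntegral)
    (hβi₁ : β₁.toRingHom.IsIntegral) (hαi₁ : α₁.toRingHom.IsIntegral)
    {f : E} (hf : (f : LaurentSeries L) ∈ gaussRing A π) (fb : E₁)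
    (hfb : (fb : LaurentSeries κ) = gaussRes A π ⟨f, hf⟩) (hfb0 : fb ≠ 0)
    {D : Divisor L E} {n : ℤ} (hD : (divOf f : Divisor L E) = n • D) {a : ℤ} {h : E} (hh : h ≠ 0)
    (hT : Divisor.correspondence β α hβi hαi D = a • D + divOf h) :
    ∃ hb : E₁, hb ≠ 0 ∧ Divisor.correspondence β₁ α₁ hβi₁ hαi₁ (divOf fb) =
      a • (divOf fb : Divisor κ E₁) + n • divOf hb := by
  obtain ⟨𝔇, -, hG⟩ := exists_isGauss A π hπ harch N r hrN hE hE₁
  have h3 : ¬ r ∣ N * l := by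
    rw [hr.out.dvd_mul]
    rintro (h | h)
    · exact hrN h
    · exact hlr ((Nat.prime_dvd_prime_iff_eq hr.out hl.out).mp h).symm
  have : NeZero (N * l) := ⟨mul_ne_zero hN.out hl.out.ne_zero⟩
  obtain ⟨𝔇', -, hG'⟩ := exists_isGauss A π hπ harch (N * l) r h3 (E := E')
    (by rw [hE', show N * r * l = N * l * r by ring]) hE₁'
  have hfO : f ∈ 𝔇.O := (hG.mem f).mpr hf
  have hfres : 𝔇.res ⟨f, hfO⟩ = fb := Subtype.ext ((hG.res ⟨f, hfO⟩).trans hfb.symm)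
  have hfin : FiniteAlong L α := finiteAlong_of_isFF α
  have hfin₁ : FiniteAlong κ α₁ := finiteAlong_of_isFF α₁
  have hf0 : f ≠ 0 := by
    have : 𝔇.res ⟨f, hfO⟩ ≠ 0 := by rw [hfres]; exact hfb0
    exact 𝔇.coe_ne_zero_of_res_ne_zero this
  obtain ⟨g, hg, hgres⟩ := IsGauss.norm_compat hG hG' hα hα₁ hβ hβ₁ hfin hfin₁
    (finrank_ratio N r hlr hrN hE hE' hE₁ hE₁' hlκ α α₁ hα hα₁) ⟨f, hfO⟩
  rw [hfres] at hgres
  have hg0 : 𝔇.res g ≠ 0 := by
    rw [hgres]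
    exact normAlong_ne_zero α₁ hfin₁ (by simpa using hfb0)
  have hrel : (divOf (g : E) : Divisor L E) = a • divOf f + n • divOf h := by
    rw [hg, ← correspondence_divOf β α hβi hαi hfin hf0, hD, map_zsmul, hT]
    module
  obtain ⟨hb, hb0, c, hc, hrel'⟩ := exists_res_relation 𝔇 (f := ⟨f, hfO⟩) (g := g)
    (by rw [hfres]; exact hfb0) hg0 hh a n hrel
  refine ⟨hb, hb0, ?_⟩
  rw [correspondence_divOf β₁ α₁ hβi₁ hαi₁ hfin₁ hfb0, ← hgres, hrel', hfres,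
    TorsInj.divOf_mul (mul_ne_zero (by simpa using hc) (zpow_ne_zero _ hfb0))
      (zpow_ne_zero _ hb0), TorsInj.divOf_mul (by simpa using hc) (zpow_ne_zero _ hfb0),
    TorsInj.divOf_algebraMap, zero_add, divOf_zpow, divOf_zpow]

include hπ harch hrN in
/-- Eigenfunctions pass to the residue at the Gauss valuation. -/
theorem hres_eigen {l : ℕ} [hl : Fact l.Prime] (hlr : l ≠ r) (hlκ : ((N * l : ℕ) : κ) ≠ 0)
    {E E' : IntermediateField L (LaurentSeries L)} [IsFF L E] [IsFF L E']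
    {E₁ E₁' : IntermediateField κ (LaurentSeries κ)} [IsFF κ E₁] [IsFF κ E₁']
    (hE : E = modularFunctionFieldFullC L (N * r))
    (hE' : E' = modularFunctionFieldFullC L (N * r * l))
    (hE₁ : E₁ = modularFunctionFieldFullC κ N) (hE₁' : E₁' = modularFunctionFieldFullC κ (N * l))
    (α β : E →ₐ[L] E') (α₁ β₁ : E₁ →ₐ[κ] E₁')
    (hα : ∀ x, (α x : LaurentSeries L) = x)
    (hβ : ∀ x, (β x : LaurentSeries L) = qExpand L l (x : LaurentSeries L))
    (hα₁ : ∀ x, (α₁ x : LaurentSeries κ) = x)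
    (hβ₁ : ∀ x, (β₁ x : LaurentSeries κ) = qExpand κ l (x : LaurentSeries κ))
    (hβi : β.toRingHom.IsIntegral) (hαi : α.toRingHom.IsIntegral)
    (hβi₁ : β₁.toRingHom.IsIntegral) (hαi₁ : α₁.toRingHom.IsIntegral)
    {f : E} (hf : (f : LaurentSeries L) ∈ gaussRing A π) (fb : E₁)
    (hfb : (fb : LaurentSeries κ) = gaussRes A π ⟨f, hf⟩) (hfb0 : fb ≠ 0) {a : ℤ}
    (hT : Divisor.correspondence β α hβi hαi (divOf f) = a • (divOf f : Divisor L E)) :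
    Divisor.correspondence β₁ α₁ hβi₁ hαi₁ (divOf fb) = a • (divOf fb : Divisor κ E₁) := by
  obtain ⟨𝔇, -, hG⟩ := exists_isGauss A π hπ harch N r hrN hE hE₁
  have h3 : ¬ r ∣ N * l := by
    rw [hr.out.dvd_mul]
    rintro (h | h)
    · exact hrN h
    · exact hlr ((Nat.prime_dvd_prime_iff_eq hr.out hl.out).mp h).symm
  have : NeZero (N * l) := ⟨mul_ne_zero hN.out hl.out.ne_zero⟩
  obtain ⟨𝔇', -, hG'⟩ := exists_isGauss A π hπ harch (N * l) r h3 (E := E')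
    (by rw [hE', show N * r * l = N * l * r by ring]) hE₁'
  have hfO : f ∈ 𝔇.O := (hG.mem f).mpr hf
  have hfres : 𝔇.res ⟨f, hfO⟩ = fb := Subtype.ext ((hG.res ⟨f, hfO⟩).trans hfb.symm)
  have hfin : FiniteAlong L α := finiteAlong_of_isFF α
  have hfin₁ : FiniteAlong κ α₁ := finiteAlong_of_isFF α₁
  have hf0 : f ≠ 0 := by
    have : 𝔇.res ⟨f, hfO⟩ ≠ 0 := by rw [hfres]; exact hfb0
    exact 𝔇.coe_ne_zero_of_res_ne_zero this
  obtain ⟨g, hg, hgres⟩ := IsGauss.norm_compat hG hG' hα hα₁ hβ hβ₁ hfin hfin₁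
    (finrank_ratio N r hlr hrN hE hE' hE₁ hE₁' hlκ α α₁ hα hα₁) ⟨f, hfO⟩
  rw [hfres] at hgres
  have hg0 : 𝔇.res g ≠ 0 := by
    rw [hgres]
    exact normAlong_ne_zero α₁ hfin₁ (by simpa using hfb0)
  have hrel : (divOf (g : E) : Divisor L E) = a • divOf f + (0 : ℤ) • divOf (1 : E) := by
    rw [hg, ← correspondence_divOf β α hβi hαi hfin hf0, hT, zero_smul, add_zero]
  obtain ⟨hb, hb0, c, hc, hrel'⟩ := exists_res_relation 𝔇 (f := ⟨f, hfO⟩) (g := g)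
    (by rw [hfres]; exact hfb0) hg0 one_ne_zero a 0 hrel
  rw [correspondence_divOf β₁ α₁ hβi₁ hαi₁ hfin₁ hfb0, ← hgres, hrel', hfres, zpow_zero, mul_one,
    TorsInj.divOf_mul (by simpa using hc) (zpow_ne_zero _ hfb0),
    TorsInj.divOf_algebraMap, zero_add, divOf_zpow]

end Hecke

end Fermat.Agent.LLu
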