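import Fermat.Agent.LLu.UnitHecke
import Fermat.Agent.BadRed.CPAbs

/-!
# The modular unit at level `N p`: places outside the cusps, reduction at the Gauss valuation
-/

set_option autoImplicit false
set_option maxHeartbeats 400000
set_option linter.unusedSectionVars false

noncomputable section

open HahnSeries ModularCurve AlgebraicCurve

attribute [-instance] Fermat.Agent.X0Places.ffField Fermat.Agent.X0Places.ffAlgebra

namespace Fermat.Agent.LLu

open Fermat.Agent.FunField Fermat.Agent.FunField.PlaceLemmas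
open Fermat.Agent.X0Places (FF)
open Fermat.Agent.MzCusp (uL uF CuspData cuspData uL_ne_zero coe_uF order_uL coeffMap_uL)
open Fermat.Agent.HeckeRed Fermat.Agent.ModPoly Fermat.Agent.ModDeg Fermat.Agent.Igusa
  Fermat.Agent.BadRed

section Char0

variable {L : Type*} [Field L] [Algebra ℚ L] [IsAlgClosed L] (ι : L →+* ℂ) (N p : ℕ) [NeZero N]
  [hp : Fact p.Prime]

include ι in
/-- **`u₀` is a unit at the places where `j` is regular.** -/
theorem ord_u0 {E : IntermediateField L (LaurentSeries L)} [IsFF L E]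
    (hE : E = modularFunctionFieldFullC L (N * p)) (u j : E)
    (hu : (u : LaurentSeries L) = uL L p) (hj : (j : LaurentSeries L) = jqModC L)
    (v : Place L E) (hv : 0 ≤ v.ord j) : v.ord u = 0 := by
  subst hE
  let θ : modularFunctionFieldFullC L p →ₐ[L] modularFunctionFieldFullC L (N * p) := incP L N p
  have hθ : θ.toRingHom.IsIntegral := HeckeRed.isIntegral_of_isFF θ
  have hup : uL L p ∈ modularFunctionFieldFullC L p := uL_mem_p ι p
  have hjp : jqModC L ∈ modularFunctionFieldFullC L p := jqModC_mem_full L p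
  have e1 : θ ⟨uL L p, hup⟩ = u := Subtype.ext ((coe_incP N p _).trans hu.symm)
  have e2 : θ ⟨jqModC L, hjp⟩ = j := Subtype.ext ((coe_incP N p _).trans hj.symm)
  have h1 := Place.ord_restrictAlong θ hθ v ⟨uL L p, hup⟩
  have h2 := Place.ord_restrictAlong θ hθ v ⟨jqModC L, hjp⟩
  rw [e1] at h1
  rw [e2] at h2
  have he : 0 < (Place.ramificationIndexAlong θ v : ℤ) := by
    let _ := algebraAlong θ
    have _ := isScalarTower_along θ
    have _ := isIntegral_along θ hθ
    exact_mod_cast v.ramificationIndex_pos (F := modularFunctionFieldFullC L p)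
  have h3 : 0 ≤ (v.restrictAlong θ hθ).ord (⟨jqModC L, hjp⟩ : modularFunctionFieldFullC L p) := by
    by_contra hcon
    push Not at hcon
    rw [h2] at hv
    exact absurd (mul_neg_of_pos_of_neg he hcon) (not_lt.mpr hv)
  rw [h1, ord_uL ι p rfl ⟨uL L p, hup⟩ ⟨jqModC L, hjp⟩ rfl rfl _ h3, mul_zero]

/-- a function which is a unit at the places where `t` is regular, is in `L(c E)`, `E` the pole
divisor of `t`. -/
theorem exists_mem_rr_poleDiv {K E : Type*} [Field K] [Field E] [Algebra K E] [IsFF K E]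
    {u t : E} (hu : u ≠ 0) (h : ∀ v : Place K E, 0 ≤ v.ord t → 0 ≤ v.ord u) :
    ∃ c : ℕ, ∀ m : ℕ, c ≤ m → u ∈ riemannRochSpace (m • (poleDiv t : Divisor K E)) := by
  classical
  refine ⟨∑ v ∈ (divOf u : Divisor K E).support, (v.ord u).natAbs, fun m hm => ?_⟩
  rw [mem_rr_nsmul_poleDiv hu]
  intro v
  by_cases hv : 0 ≤ v.ord t
  · have h1 := h v hv
    have h2 : (0 : ℤ) ≤ m * max (-(v.ord t)) 0 := mul_nonneg (Int.natCast_nonneg _) (le_max_right _ _)
    linarith
  · push Not at hv
    have h1 : (1 : ℤ) ≤ max (-(v.ord t)) 0 := le_max_of_le_left (by omega)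
    have h2 : (v.ord u).natAbs ≤ m := by
      by_cases h0 : v.ord u = 0
      · rw [h0]; exact Nat.zero_le _
      · refine le_trans ?_ hm
        exact Finset.single_le_sum (f := fun v : Place K E => (v.ord u).natAbs)
          (fun _ _ => Nat.zero_le _) (by rw [Finsupp.mem_support_iff, divOf_apply]; exact h0)
    have h3 : -(v.ord u) ≤ m := by omega
    nlinarith [Int.natCast_nonneg m]

end Char0

section Residue

variable {L : Type*} [Field L] (A : ValuationSubring L) {κ : Type*} [Field κ] (π : A →+* κ)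
  (p : ℕ) [NeZero p]

theorem uL_mem_gauss : uL L p ∈ gaussRing A π := by
  rw [← coeffMap_uL p A.subtype]
  exact emb_mem_gaussRing _

theorem gaussRes_uL (h : uL L p ∈ gaussRing A π) : gaussRes A π ⟨uL L p, h⟩ = uL κ p := by
  have h1 := gaussRes_emb (π := π) (uL A p)
  rw [coeffMap_uL p π] at h1
  rw [← h1]
  exact gaussRes_congr (coeffMap_uL p A.subtype).symm

/-- the residue is a unit -/
theorem uL_mem_gauss_inv : (uL L p)⁻¹ ∈ gaussRing A π := by
  have h := inv_mem_gaussRing (x := ⟨uL L p, uL_mem_gauss A π p⟩) (by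
    rw [gaussRes_uL]; exact uL_ne_zero p κ)
  exact h

end Residue

section Charp

variable {L : Type*} [Field L] [Algebra ℚ L] [IsAlgClosed L] (ι : L →+* ℂ)
  (A : ValuationSubring L)
  {κ : Type*} [Field κ] [IsAlgClosed κ] (π : A →+* κ) [IsLocalHom π]
  (hπ : Function.Surjective π) (harch : ArchA π)
  (N p : ℕ) [hp : Fact p.Prime] [hN : NeZero N] [CharP κ p] (hpN : ¬ p ∣ N)

include ι hπ harch hpN in
/-- the residue of `u₀` is in `F_N(κ)` -/
theorem uL_mem_full_res : uL κ p ∈ modularFunctionFieldFullC κ N := by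
  have : CharZero L := algebraRat.charZero L
  have h := (VV₁ A π hπ harch N p hpN).r
    ⟨u0 ι N p, by
      rw [mem_VV₁, mem_O₁, coe_u0]
      exact uL_mem_gauss A π p⟩ |>.2
  rw [coe_VV₁_r A π hπ harch N p hpN _ (by
    rw [mem_O₁, coe_u0]
    exact uL_mem_gauss A π p)] at h
  have e : res₁ A π N p ⟨u0 ι N p, by
      rw [mem_O₁, coe_u0]
      exact uL_mem_gauss A π p⟩ = uL κ p := by
    rw [← gaussRes_uL A π p (uL_mem_gauss A π p)]
    exact gaussRes_congr (coe_u0 ι N p)
  rwa [e] at h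

include ι hπ harch hpN in
/-- **`T_l (div ū) = (l + 1) div ū`** in characteristic `p`. -/
theorem correspondence_ub {l : ℕ} [hl : Fact l.Prime] (hlp : l ≠ p) (hlN : ¬ l ∣ N)
    {E₁ E₁' : IntermediateField κ (LaurentSeries κ)} [IsFF κ E₁] [IsFF κ E₁']
    (hE₁ : E₁ = modularFunctionFieldFullC κ N) (hE₁' : E₁' = modularFunctionFieldFullC κ (N * l))
    (α₁ β₁ : E₁ →ₐ[κ] E₁')
    (hα₁ : ∀ x, (α₁ x : LaurentSeries κ) = x)
    (hβ₁ : ∀ x, (β₁ x : LaurentSeries κ) = qExpand κ l (x : LaurentSeries κ))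
    (hβi₁ : β₁.toRingHom.IsIntegral) (hαi₁ : α₁.toRingHom.IsIntegral)
    (ub : E₁) (hub : (ub : LaurentSeries κ) = uL κ p) :
    Divisor.correspondence β₁ α₁ hβi₁ hαi₁ (divOf ub) = ((l : ℤ) + 1) • divOf ub := by
  have : CharZero L := algebraRat.charZero L
  have hlκ : ((N * l : ℕ) : κ) ≠ 0 := by
    rw [Ne, CharP.cast_eq_zero_iff κ p, hp.out.dvd_mul]
    rintro (h | h)
    · exact hpN h
    · exact hlp ((Nat.prime_dvd_prime_iff_eq hp.out hl.out).mp h).symm
  have : NeZero (N * p * l) := ⟨mul_ne_zero (mul_ne_zero hN.out hp.out.ne_zero) hl.out.ne_zero⟩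
  have hα := coe_alpha1 L (N * p) l
  have hβ := coe_beta1 L (N * p) l
  have hub0 : ub ≠ 0 := by
    rintro rfl
    exact uL_ne_zero p κ hub.symm
  have hT := correspondence_u0 ι N p hlp hlN rfl rfl (alpha1 L (N * p) l) (beta1 L (N * p) l)
    hα hβ (HeckeRed.isIntegral_of_isFF _) (HeckeRed.isIntegral_of_isFF _) (u0 ι N p) (coe_u0 ι N p)
  have hf : ((u0 ι N p : modularFunctionFieldFullC L (N * p)) : LaurentSeries L) ∈
      gaussRing A π := by
    rw [coe_u0]; exact uL_mem_gauss A π p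
  have hres : (ub : LaurentSeries κ) = gaussRes A π ⟨_, hf⟩ := by
    rw [hub, ← gaussRes_uL A π p (uL_mem_gauss A π p)]
    exact gaussRes_congr (coe_u0 ι N p).symm
  exact hres_eigen A π hπ harch N p hpN hlp hlκ rfl rfl hE₁ hE₁'
    (alpha1 L (N * p) l) (beta1 L (N * p) l) α₁ β₁ hα hβ hα₁ hβ₁ (HeckeRed.isIntegral_of_isFF _)
    (HeckeRed.isIntegral_of_isFF _) hβi₁ hαi₁ hf ub hres hub0 hT

end Charp

end Fermat.Agent.LLu
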