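import Fermat.Agent.BadRed.Conc4
import Fermat.Agent.HeckeRed.Abstract
import Fermat.Agent.HeckeRed.Degen
import Fermat.Agent.Deuring.Basic

/-!
# The Gauss valuation of `X₀(N r)` at `r` as a Deuring datum
-/

set_option autoImplicit false
set_option maxHeartbeats 400000

noncomputable section

open HahnSeries ModularCurve Module Polynomial AlgebraicCurve

namespace Fermat.Agent.LLu

open Fermat.Agent.Igusa Fermat.Agent.AtkinLehner Fermat.Agent.BadRed Fermat.Agent.HeckeRed

attribute [local instance 2000] lsModule lsSMul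

variable {L : Type*} [Field L] [IsAlgClosed L] [CharZero L] (A : ValuationSubring L)
  {κ : Type*} [Field κ] (π : A →+* κ) [IsLocalHom π] (hπ : Function.Surjective π)
  (harch : ArchA π)
  (N r : ℕ) [hr : Fact r.Prime] [hN : NeZero N] [CharP κ r] (hrN : ¬ r ∣ N)

/-- The Gauss valuation of `F_{Nr}` at `r`, with residue field `F_N(κ)`. -/
def badData : Deuring.Data L κ (modularFunctionFieldFullC L (N * r))
    (modularFunctionFieldFullC κ N) where
  A := A
  O := (VV₁ A π hπ harch N r hrN).O
  π := π
  res := (VV₁ A π hπ harch N r hrN).r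
  mem_iff := (VV₁ A π hπ harch N r hrN).mem_iff
  π_surj := hπ
  π_ker := pi_ker A π
  res_surj x := by
    obtain ⟨g, h, -, e⟩ := exists_lift_F₀ (L := L) A π hπ N r x.2
    exact ⟨⟨g, h⟩, Subtype.ext e⟩
  res_ker := (VV₁ A π hπ harch N r hrN).r_ker
  res_algebraMap := (VV₁ A π hπ harch N r hrN).r_algebraMap
  lat V hV := by
    obtain ⟨b, hb, hli⟩ := exists_orthonormal A π (isTameField_full (N * r)) V
    refine ⟨b, hb, ?_⟩
    exact LinearIndependent.of_comp (modularFunctionFieldFullC κ N).val.toLinearMap hli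

theorem isGauss_badData : IsGauss π (badData A π hπ harch N r hrN) where
  mem _ := Iff.rfl
  res _ := rfl

include hπ harch hrN in
/-- `badData` for a field equal to `F_{Nr}`. -/
theorem exists_isGauss {E : IntermediateField L (LaurentSeries L)}
    {E₁ : IntermediateField κ (LaurentSeries κ)}
    (hE : E = modularFunctionFieldFullC L (N * r)) (hE₁ : E₁ = modularFunctionFieldFullC κ N) :
    ∃ 𝔇 : Deuring.Data L κ E E₁, 𝔇.A = A ∧ IsGauss π 𝔇 := by
  subst hE hE₁
  exact ⟨badData A π hπ harch N r hrN, rfl, isGauss_badData A π hπ harch N r hrN⟩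

end Fermat.Agent.LLu
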