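import Fermat.Agent.LLu.UnitRes
import Fermat.Agent.BadRed.CPPole

/-!
# Divisibility of the divisor of the residue: the dichotomy `p ∣ j₀` or `a_l ≡ l + 1`
-/

set_option autoImplicit false
set_option maxHeartbeats 400000
set_option linter.unusedSectionVars false

noncomputable section

open HahnSeries ModularCurve AlgebraicCurve

namespace Fermat.Agent.LLu

open Fermat.Agent.FunField Fermat.Agent.FunField.PlaceLemmas
open Fermat.Agent.HeckeRed Fermat.Agent.ModPoly Fermat.Agent.ModDeg Fermat.Agent.Igusa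
  Fermat.Agent.BadRed

section Cusp

variable {K : Type*} [Field K] [IsAlgClosed K] {E E' : IntermediateField K (LaurentSeries K)}
  [IsFF K E] [IsFF K E'] {l : ℕ} [hl : Fact l.Prime]
  (α β : E →ₐ[K] E') (hα : ∀ x, (α x : LaurentSeries K) = x)
  (hβ : ∀ x, (β x : LaurentSeries K) = qExpand K l (x : LaurentSeries K))
  (hβi : β.toRingHom.IsIntegral) (hαi : α.toRingHom.IsIntegral)
  {j : E} (hj : (j : LaurentSeries K) = jqModC K)

include hα hβ hj in
/-- if `j` is regular at a place, so is `j(q^l)`. -/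
theorem ord_beta_nonneg (W : Place K E') (hW : 0 ≤ W.ord (α j)) : 0 ≤ W.ord (β j) := by
  have key : ((modPolyK K l).map (Polynomial.aeval (α j) :
      Polynomial K →ₐ[K] _).toRingHom).eval (β j) = 0 := by
    apply E'.val.injective
    rw [map_zero]
    have h1 := HeckeRed.modPolyK_eval K l
    rw [← h1, Polynomial.eval_map, Polynomial.eval_map]
    have h2 := Polynomial.hom_eval₂ (modPolyK K l)
      (Polynomial.aeval (α j) : Polynomial K →ₐ[K] _).toRingHom
      (E'.val : _ →+* LaurentSeries K) (β j)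
    refine h2.trans ?_
    have h3 : (E'.val : E' →+* LaurentSeries K) (β j) = qExpand K l (jqModC K) :=
      (hβ j).trans (by rw [hj])
    rw [h3]
    congr 1
    refine RingHom.ext fun G => ?_
    show E'.val (Polynomial.aeval (α j) G) = Polynomial.aeval (jqModC K) G
    rw [← Polynomial.aeval_algHom_apply]
    have h4 : E'.val (α j) = jqModC K := (hα j).trans hj
    rw [h4]
  have := CP.ord_root_nonneg W (modPolyK_monic l) key (not_lt.mpr hW)
  exact not_lt.mp this

include hα hβ hj in
/-- The Hecke correspondence preserves the divisors supported at the cusps. -/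
theorem correspondence_cusp (C : Divisor K E) (hC : ∀ v : Place K E, 0 ≤ v.ord j → C v = 0)
    (v : Place K E) (hv : 0 ≤ v.ord j) : Divisor.correspondence β α hβi hαi C v = 0 := by
  classical
  have hone : ∀ P : Place K E, P.ord j < 0 →
      Divisor.correspondence β α hβi hαi (Finsupp.single P 1) v = 0 := by
    intro P hP
    by_contra hcon
    obtain ⟨W, hW1, hW2⟩ := exists_of_correspondence_ne_zero β α hβi hαi P v hcon
    have h1 := Place.ord_restrictAlong α hαi W j
    have h2 := Place.ord_restrictAlong β hβi W j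
    rw [hW2] at h1
    rw [hW1] at h2
    have h3 : 0 ≤ W.ord (α j) := by
      rw [h1]
      exact mul_nonneg (Int.natCast_nonneg _) hv
    have h4 := ord_beta_nonneg α β hα hβ hj W h3
    have he : 0 < (Place.ramificationIndexAlong β W : ℤ) := by
      let _ := algebraAlong β
      have _ := isScalarTower_along β
      have _ := isIntegral_along β hβi
      exact_mod_cast W.ramificationIndex_pos (F := E)
    rw [h2] at h4
    exact absurd (mul_neg_of_pos_of_neg he hP) (not_lt.mpr h4)
  have h5 : C = ∑ P ∈ C.support, C P • Finsupp.single P (1 : ℤ) := by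
    conv_lhs => rw [← Finsupp.sum_single C]
    rw [Finsupp.sum]
    refine Finset.sum_congr rfl fun P _ => ?_
    rw [Finsupp.smul_single, smul_eq_mul, mul_one]
  rw [h5, map_sum, Finsupp.finset_sum_apply]
  refine Finset.sum_eq_zero fun P hP => ?_
  rw [map_zsmul, Finsupp.smul_apply]
  by_cases h : P.ord j < 0
  · rw [hone P h, smul_zero]
  · rw [hC P (not_lt.mp h), zero_smul]

include hα hβ hj in
/-- Divisibility away from the cusps is preserved by the Hecke correspondence. -/
theorem dvd_correspondence {n : ℤ} (hn : n ≠ 0) (G : Divisor K E)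
    (hG : ∀ v : Place K E, 0 ≤ v.ord j → n ∣ G v) (v : Place K E) (hv : 0 ≤ v.ord j) :
    n ∣ Divisor.correspondence β α hβi hαi G v := by
  classical
  let B : Divisor K E := (G.filter (fun v => 0 ≤ v.ord j)).mapRange (fun z => z / n) (by simp)
  have hB : ∀ v : Place K E, 0 ≤ v.ord j → n * B v = G v := by
    intro v hv
    show n * ((G.filter (fun v => 0 ≤ v.ord j)) v / n) = G v
    rw [Finsupp.filter_apply_pos (fun v : Place K E => 0 ≤ v.ord j) G hv]
    exact Int.mul_ediv_cancel' (hG v hv)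
  have h1 := correspondence_cusp α β hα hβ hβi hαi hj (G - n • B) (fun v hv => by
    rw [Finsupp.sub_apply, Finsupp.smul_apply, smul_eq_mul, hB v hv, sub_self]) v hv
  rw [map_sub, map_zsmul, Finsupp.sub_apply, Finsupp.smul_apply, sub_eq_zero, smul_eq_mul] at h1
  rw [h1]
  exact Dvd.intro _ rfl

end Cusp

section Efin

variable {K : Type*} [Field K] [IsAlgClosed K] {E E' : IntermediateField K (LaurentSeries K)}
  [IsFF K E] [IsFF K E'] {l : ℕ} [hl : Fact l.Prime]
  (α β : E →ₐ[K] E') (hα : ∀ x, (α x : LaurentSeries K) = x)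
  (hβ : ∀ x, (β x : LaurentSeries K) = qExpand K l (x : LaurentSeries K))
  (hβi : β.toRingHom.IsIntegral) (hαi : α.toRingHom.IsIntegral)
  {j : E} (hj : (j : LaurentSeries K) = jqModC K)

include hα hβ hj in
/-- The congruence of [EFIN]. -/
theorem dvd_of_hecke {p : ℕ} (hp : p.Prime) {fb ub hb : E} {j₀ a : ℤ}
    (h1 : ∀ v : Place K E, 0 ≤ v.ord j → (p : ℤ) ∣ v.ord fb - j₀ * v.ord ub)
    (h3 : ∃ v : Place K E, 0 ≤ v.ord j ∧ ¬ (p : ℤ) ∣ v.ord ub)
    (hf : Divisor.correspondence β α hβi hαi (divOf fb) =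
      a • (divOf fb : Divisor K E) + (p : ℤ) • divOf hb)
    (hu : Divisor.correspondence β α hβi hαi (divOf ub) =
      ((l : ℤ) + 1) • (divOf ub : Divisor K E)) :
    (p : ℤ) ∣ j₀ * (a - ((l : ℤ) + 1)) := by
  have hpZ : Prime (p : ℤ) := Nat.prime_iff_prime_int.mp hp
  obtain ⟨v, hv, hvu⟩ := h3
  have h4 := dvd_correspondence α β hα hβ hβi hαi hj hpZ.ne_zero (divOf fb - j₀ • divOf ub)
    (fun w hw => by
      rw [Finsupp.sub_apply, Finsupp.smul_apply, divOf_apply, divOf_apply, smul_eq_mul]
      exact h1 w hw) v hv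
  rw [map_sub, map_zsmul, hf, hu, Finsupp.sub_apply, Finsupp.add_apply, Finsupp.smul_apply,
    Finsupp.smul_apply, Finsupp.smul_apply, Finsupp.smul_apply, divOf_apply, divOf_apply,
    divOf_apply, smul_eq_mul, smul_eq_mul, smul_eq_mul, smul_eq_mul] at h4
  have h5 := h1 v hv
  have h6 : (p : ℤ) ∣ j₀ * (a - ((l : ℤ) + 1)) * v.ord ub := by
    have e : j₀ * (a - ((l : ℤ) + 1)) * v.ord ub =
        (a * v.ord fb + p * v.ord hb - j₀ * (((l : ℤ) + 1) * v.ord ub)) -
          a * (v.ord fb - j₀ * v.ord ub) - p * v.ord hb := by ring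
    rw [e]
    exact dvd_sub (dvd_sub h4 (h5.mul_left _)) (Dvd.intro _ rfl)
  exact (hpZ.dvd_or_dvd h6).resolve_right hvu

/-- `B = div(fb)/p`. -/
theorem exists_divOf_eq_smul {p : ℕ} (hp : p.Prime) {fb ub : E} {j₀ : ℤ}
    (h0 : (p : ℤ) ∣ j₀)
    (h1 : ∀ v : Place K E, 0 ≤ v.ord j → (p : ℤ) ∣ v.ord fb - j₀ * v.ord ub)
    (h2 : ∀ v : Place K E, v.ord j < 0 → (p : ℤ) ∣ v.ord fb) :
    ∃ B : Divisor K E, (divOf fb : Divisor K E) = (p : ℤ) • B := by
  classical
  have hdvd : ∀ v : Place K E, (p : ℤ) ∣ v.ord fb := by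
    intro v
    by_cases hv : v.ord j < 0
    · exact h2 v hv
    · have := h1 v (not_lt.mp hv)
      exact (dvd_sub_left (h0.mul_right _)).mp this
  refine ⟨(divOf fb).mapRange (fun z => z / (p : ℤ)) (by simp), ?_⟩
  ext v
  rw [Finsupp.smul_apply, Finsupp.mapRange_apply, divOf_apply, smul_eq_mul,
    Int.mul_ediv_cancel' (hdvd v)]

/-- the Hecke relation for `B`. -/
theorem correspondence_of_smul {p : ℕ} (hp : p.Prime) {fb hb : E} {a : ℤ} {B : Divisor K E}
    (hB : (divOf fb : Divisor K E) = (p : ℤ) • B)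
    (hf : Divisor.correspondence β α hβi hαi (divOf fb) =
      a • (divOf fb : Divisor K E) + (p : ℤ) • divOf hb) :
    Divisor.correspondence β α hβi hαi B = a • B + divOf hb := by
  rw [hB, map_zsmul] at hf
  have h1 : (p : ℤ) • Divisor.correspondence β α hβi hαi B =
      (p : ℤ) • (a • B + divOf hb) := by
    rw [hf]
    module
  have hp0 : (p : ℤ) ≠ 0 := by exact_mod_cast hp.ne_zero
  ext v
  have h2 := congrArg (fun D : Divisor K E => D v) h1
  simp only [Finsupp.smul_apply, smul_eq_mul] at h2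
  exact mul_left_cancel₀ hp0 h2

end Efin

end Fermat.Agent.LLu
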