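import Fermat.Agent.LLu.WUnit
import Fermat.Agent.LLu.HRes
import Fermat.Agent.HeckeRed.Product

/-!
# The modular unit `Δ(τ)/Δ(pτ)` at level `N p`: divisor, Hecke operators, reduction
-/

set_option autoImplicit false
set_option maxHeartbeats 400000
set_option linter.unusedSectionVars false

noncomputable section

open HahnSeries ModularCurve AlgebraicCurve

attribute [-instance] Fermat.Agent.X0Places.ffField Fermat.Agent.X0Places.ffAlgebra

namespace Fermat.Agent.LLu

open Fermat.Agent.FunField Fermat.Agent.FunField.PlaceLemmas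
open Fermat.Agent.X0Places (FF)
open Fermat.Agent.MzCusp (uL uF CuspData cuspData uL_ne_zero coe_uF order_uL)
open Fermat.Agent.HeckeRed Fermat.Agent.ModPoly Fermat.Agent.ModDeg

section LevelP

variable {L : Type*} [Field L] [Algebra ℚ L] [IsAlgClosed L] (ι : L →+* ℂ) (p : ℕ)
  [hp : Fact p.Prime]

include ι in
/-- `u` is a unit outside the cusps -/
theorem ord_uL {E : IntermediateField L (LaurentSeries L)} (hE : E = modularFunctionFieldFullC L p)
    (u j : E) (hu : (u : LaurentSeries L) = uL L p) (hj : (j : LaurentSeries L) = jqModC L)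
    (P : Place L E) (hP : 0 ≤ P.ord j) : P.ord u = 0 := by
  have hE' : E = FF L p := hE.trans (HeckeRed.laurentBaseChange_full L p).symm
  subst hE'
  have e1 : u = uF ι p := Subtype.ext (hu.trans (coe_uF ι p).symm)
  have e2 : j = X0Places.jF L p := Subtype.ext (hj.trans (X0Places.coe_jF L p).symm)
  subst e1 e2
  exact MzCusp.ord_uF ι p P hP

include ι in
/-- the divisor of the modular unit at level `p` -/
theorem divOf_uL {E : IntermediateField L (LaurentSeries L)} [IsFF L E]
    (hE : E = modularFunctionFieldFullC L p)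
    (u : E) (hu : (u : LaurentSeries L) = uL L p) (C : CuspData L p E) :
    (divOf u : Divisor L E) = ((p : ℤ) - 1) • (Finsupp.single C.zero 1 - Finsupp.single C.inf 1) := by
  classical
  have hne := C.inf_ne_zero hp.out.one_lt
  have h0 : ∀ P : Place L E, P ≠ C.inf → P ≠ C.zero → P.ord u = 0 := by
    intro P h1 h2
    apply ord_uL ι p hE u C.j hu C.coe_j P
    by_contra hcon
    push Not at hcon
    rcases C.cases P hcon with h | h
    · exact h1 h
    · exact h2 h
  have hinf : C.inf.ord u = 1 - p := by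
    rw [C.ord_inf, hu, order_uL]
  have hdiv : (divOf u : Divisor L E) =
      Finsupp.single C.inf (1 - (p : ℤ)) + Finsupp.single C.zero (C.zero.ord u) := by
    ext P
    rw [divOf_apply, Finsupp.add_apply, Finsupp.single_apply, Finsupp.single_apply]
    by_cases h1 : P = C.inf
    · rw [h1, if_pos rfl, if_neg (Ne.symm hne), hinf, add_zero]
    · rw [if_neg (Ne.symm h1)]
      by_cases h2 : P = C.zero
      · rw [h2, if_pos rfl, zero_add]
      · rw [if_neg (Ne.symm h2), h0 P h1 h2, add_zero]
  have hdeg : Divisor.degree (divOf u : Divisor L E) = 0 := degree_divOf _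
  rw [hdiv, map_add, Divisor.degree_single, Divisor.degree_single, Deuring.deg_eq_one,
    Deuring.deg_eq_one] at hdeg
  have h3 : C.zero.ord u = (p : ℤ) - 1 := by push_cast at hdeg; linarith
  have h4 : (1 - (p : ℤ)) = -((p : ℤ) - 1) := by ring
  rw [hdiv, h3, smul_sub, Finsupp.smul_single, Finsupp.smul_single, smul_eq_mul, mul_one, h4,
    Finsupp.single_neg]
  abel

/-- Equal divisors differ by a constant. -/
theorem exists_const_of_divOf_eq {K E : Type*} [Field K] [Field E] [Algebra K E] [IsFF K E]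
    [IsAlgClosed K] {f g : E} (hf : f ≠ 0) (hg : g ≠ 0)
    (h : (divOf f : Divisor K E) = divOf g) : ∃ c : K, c ≠ 0 ∧ f = algebraMap K E c * g := by
  obtain ⟨c, hc⟩ : ∃ c : K, algebraMap K E c = f * g⁻¹ := by
    apply exists_eq_algebraMap_of_forall_ord_nonneg (K := K)
    intro v
    rw [← divOf_apply, TorsInj.divOf_mul hf (inv_ne_zero hg), TorsInj.divOf_inv, h, add_neg_cancel,
      Finsupp.zero_apply]
  refine ⟨c, ?_, ?_⟩
  · rintro rfl
    rw [map_zero] at hc
    exact mul_ne_zero hf (inv_ne_zero hg) hc.symm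
  · rw [hc, mul_assoc, inv_mul_cancel₀ hg, mul_one]

include ι in
/-- `T_l u = c u^{l+1}` at level `p`. -/
theorem norm_uL_p {l : ℕ} [hl : Fact l.Prime] (hlp : l ≠ p)
    {E E' : IntermediateField L (LaurentSeries L)}
    (hE : E = modularFunctionFieldFullC L p) (hE' : E' = modularFunctionFieldFullC L (p * l))
    (α β : E →ₐ[L] E') (hα : ∀ x, (α x : LaurentSeries L) = x)
    (hβ : ∀ x, (β x : LaurentSeries L) = qExpand L l (x : LaurentSeries L))
    [IsFF L E] [IsFF L E'] (u : E) (hu : (u : LaurentSeries L) = uL L p) :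
    ∃ c : L, c ≠ 0 ∧ normAlong α (β u) = algebraMap L E c * u ^ (l + 1) := by
  have : CharZero L := algebraRat.charZero L
  have hpL : (p : L) ≠ 0 := by exact_mod_cast hp.out.ne_zero
  have hlL : (l : L) ≠ 0 := by exact_mod_cast hl.out.ne_zero
  let C : CuspData L p E := cuspData L p hpL E hE
  have hαi := isIntegral_of_isFF α
  have hβi := isIntegral_of_isFF β
  have hc := MzCusp.hecke_cusp hlp hpL hlL hE hE' α β hα hβ hαi hβi C
  have hu0 : u ≠ 0 := by
    rintro rfl
    exact uL_ne_zero p L hu.symm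
  have hfin := finiteAlong_of_isFF α
  have h1 : (divOf (normAlong α (β u)) : Divisor L E) = divOf (u ^ (l + 1)) := by
    rw [← correspondence_divOf β α hβi hαi hfin hu0, TorsInj.divOf_pow,
      divOf_uL ι p hE u hu C, map_zsmul, map_sub, hc.1, hc.2]
    have h2 : ∀ P : Place L E, (Finsupp.single P ((l : ℤ) + 1) : Divisor L E) =
        (l + 1) • Finsupp.single P 1 := by
      intro P
      rw [Finsupp.smul_single, nsmul_eq_mul, mul_one]
      push_cast
      rfl
    rw [h2, h2, ← nsmul_sub, smul_comm]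
  exact exists_const_of_divOf_eq (normAlong_ne_zero α hfin (by simpa using hu0))
    (pow_ne_zero _ hu0) h1

include ι in
/-- the product formula for the modular unit -/
theorem prod_conj_uL {l : ℕ} [hl : Fact l.Prime] (hlp : l ≠ p) {v : Lˣ}
    (hv : IsPrimitiveRoot v l) :
    ∃ c : L, c ≠ 0 ∧ ∏ i, conjL l v i (uL L p) =
      qExpand L l (algebraMap L (LaurentSeries L) c * (uL L p) ^ (l + 1)) := by
  have : CharZero L := algebraRat.charZero L
  have : NeZero (p * l) := ⟨mul_ne_zero hp.out.ne_zero hl.out.ne_zero⟩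
  have hα := coe_alpha1 L p l
  have hβ := coe_beta1 L p l
  have hu : uL L p ∈ modularFunctionFieldFullC L p := uL_mem_p ι p
  obtain ⟨c, hc, h⟩ := norm_uL_p ι p hlp rfl rfl (alpha1 L p l) (beta1 L p l) hα hβ ⟨_, hu⟩ rfl
  refine ⟨c, hc, ?_⟩
  have h1 := qExpand_normAlong rfl rfl (alpha1 L p l) (beta1 L p l) hα hβ
    (fun h => hlp ((Nat.prime_dvd_prime_iff_eq hl.out hp.out).mp h)) hv ⟨_, hu⟩
  rw [← h1, h]
  rfl

end LevelP

section LevelNp

variable {L : Type*} [Field L] [Algebra ℚ L] [IsAlgClosed L] (ι : L →+* ℂ) (N p : ℕ) [NeZero N]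
  [hp : Fact p.Prime]

include ι in
/-- `T_l u = c u^{l+1}` at level `N p`. -/
theorem norm_u0 {l : ℕ} [hl : Fact l.Prime] (hlp : l ≠ p) (hlN : ¬ l ∣ N)
    {E E' : IntermediateField L (LaurentSeries L)}
    (hE : E = modularFunctionFieldFullC L (N * p))
    (hE' : E' = modularFunctionFieldFullC L (N * p * l))
    (α β : E →ₐ[L] E') (hα : ∀ x, (α x : LaurentSeries L) = x)
    (hβ : ∀ x, (β x : LaurentSeries L) = qExpand L l (x : LaurentSeries L))
    (u : E) (hu : (u : LaurentSeries L) = uL L p) :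
    ∃ c : L, c ≠ 0 ∧ normAlong α (β u) = algebraMap L E c * u ^ (l + 1) := by
  have : CharZero L := algebraRat.charZero L
  have hlL : (l : L) ≠ 0 := by exact_mod_cast hl.out.ne_zero
  obtain ⟨v, hv⟩ := ModDeg.exists_primitiveRoot_unit hl.out hlL
  obtain ⟨c, hc, h⟩ := prod_conj_uL ι p hlp hv
  refine ⟨c, hc, ?_⟩
  have hlNp : ¬ l ∣ N * p := by
    rw [hl.out.dvd_mul]
    rintro (h | h)
    · exact hlN h
    · exact hlp ((Nat.prime_dvd_prime_iff_eq hl.out hp.out).mp h)
  have h1 := qExpand_normAlong hE hE' α β hα hβ hlNp hv u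
  rw [hu, h] at h1
  have h2 := qExpand_injective l h1
  apply Subtype.ext
  rw [h2, ← hu]
  rfl

include ι in
/-- **`T_l (div u₀) = (l + 1) div u₀`.** -/
theorem correspondence_u0 {l : ℕ} [hl : Fact l.Prime] (hlp : l ≠ p) (hlN : ¬ l ∣ N)
    {E E' : IntermediateField L (LaurentSeries L)} [IsFF L E] [IsFF L E']
    (hE : E = modularFunctionFieldFullC L (N * p))
    (hE' : E' = modularFunctionFieldFullC L (N * p * l))
    (α β : E →ₐ[L] E') (hα : ∀ x, (α x : LaurentSeries L) = x)
    (hβ : ∀ x, (β x : LaurentSeries L) = qExpand L l (x : LaurentSeries L))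
    (hβi : β.toRingHom.IsIntegral) (hαi : α.toRingHom.IsIntegral)
    (u : E) (hu : (u : LaurentSeries L) = uL L p) :
    Divisor.correspondence β α hβi hαi (divOf u) = ((l : ℤ) + 1) • divOf u := by
  have hu0 : u ≠ 0 := by
    rintro rfl
    exact uL_ne_zero p L hu.symm
  obtain ⟨c, hc, h⟩ := norm_u0 ι N p hlp hlN hE hE' α β hα hβ u hu
  rw [correspondence_divOf β α hβi hαi (finiteAlong_of_isFF α) hu0, h,
    TorsInj.divOf_mul (by simpa using hc) (pow_ne_zero _ hu0), TorsInj.divOf_algebraMap, zero_add,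
    TorsInj.divOf_pow]
  module

end LevelNp

end Fermat.Agent.LLu
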