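import Fermat.Agent.MzCusp.Unit
import Fermat.Agent.AtkinLehner.Basic

/-!
# The Atkin-Lehner involution `w_p` on the modular unit `Δ(τ)/Δ(pτ)`
-/

set_option autoImplicit false
set_option maxHeartbeats 400000

noncomputable section

open UpperHalfPlane Function ModularCurve Filter ModularForm AlgebraicCurve
open scoped Manifold MatrixGroups Topology ModularForm

attribute [-instance] Fermat.Agent.X0Places.ffField Fermat.Agent.X0Places.ffAlgebra

namespace Fermat.Agent.LLu

open Fermat.Agent.X0Places Fermat.Agent.MzCusp Fermat.Agent.ModDeg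

section Comp

/-- composition with `τ ↦ d τ` on holomorphic functions -/
def scHolo (d : ℕ) (hd : 0 < d) : Holo →+* Holo where
  toFun f := ⟨fun z => (f : ℍ → ℂ) (scaleH d hd z), mdiff_affH d 1 0 hd one_pos f.2⟩
  map_one' := rfl
  map_mul' f g := rfl
  map_zero' := rfl
  map_add' f g := rfl

theorem scHolo_apply (d : ℕ) (hd : 0 < d) (f : Holo) (z : ℍ) :
    (scHolo d hd f : ℍ → ℂ) z = (f : ℍ → ℂ) (scaleH d hd z) := rfl

theorem scaleH_surjective (d : ℕ) (hd : 0 < d) : Surjective (scaleH d hd) := by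
  intro z
  refine ⟨affH 1 d 0 one_pos hd z, ?_⟩
  apply UpperHalfPlane.ext
  rw [coe_scaleH, coe_affH]
  have : (d : ℂ) ≠ 0 := by exact_mod_cast hd.ne'
  push_cast
  field_simp
  ring

theorem scHolo_injective (d : ℕ) (hd : 0 < d) : Injective (scHolo d hd) := by
  intro f g h
  apply Subtype.ext
  funext z
  obtain ⟨z, rfl⟩ := scaleH_surjective d hd z
  exact congrFun (congrArg Subtype.val h) z

/-- composition with `τ ↦ d τ` on meromorphic functions -/
def scMer (d : ℕ) (hd : 0 < d) : Mer →+* Mer :=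
  IsFractionRing.lift (A := Holo) (K := Mer) (g := (algebraMap Holo Mer).comp (scHolo d hd))
    ((IsFractionRing.injective Holo Mer).comp (scHolo_injective d hd))

@[simp]
theorem scMer_algebraMap (d : ℕ) (hd : 0 < d) (f : Holo) :
    scMer d hd (algebraMap Holo Mer f) = algebraMap Holo Mer (scHolo d hd f) :=
  IsFractionRing.lift_algebraMap _ f

end Comp

variable {L : Type*} [Field L] [Algebra ℚ L] [IsAlgClosed L] (ι : L →+* ℂ) (N p : ℕ) [NeZero N]
  [hp : Fact p.Prime]

instance neZero_p : NeZero p := ⟨hp.out.ne_zero⟩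

instance neZero_Np : NeZero (N * p) := ⟨mul_ne_zero (NeZero.ne N) hp.out.ne_zero⟩

/-- `j(dτ)` as a holomorphic function -/
def jdHolo (d : ℕ) (hd : 0 < d) : Holo := ⟨jd d hd, mdiff_jd d hd⟩

/-- The function field of level `M` inside the meromorphic functions. -/
def tM (M : ℕ) [NeZero M] : modularFunctionFieldFullC L M →+* Mer :=
  (toMer ι M).comp (IntermediateField.inclusion
    (HeckeRed.laurentBaseChange_full L M).ge : modularFunctionFieldFullC L M →+* FF L M)

omit [IsAlgClosed L] in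
theorem tM_of_mem {M : ℕ} [NeZero M] {x : modularFunctionFieldFullC L M} (f : Holo)
    (hf : IsAn M (f : ℍ → ℂ)) (h : HasLaurent 1 (f : ℍ → ℂ) (coeffMap ι (x : LaurentSeries L))) :
    tM ι M x = algebraMap Holo Mer f := by
  show toMer ι M (IntermediateField.inclusion (HeckeRed.laurentBaseChange_full L M).ge x) = _
  refine toMer_of_mem f hf ?_
  rw [IntermediateField.coe_inclusion]
  exact h

omit [IsAlgClosed L] in
theorem tM_vj {M : ℕ} [NeZero M] {d : ℕ} (hd : 0 < d) (hdM : d ∣ M)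
    (h : vj L d ∈ modularFunctionFieldFullC L M) :
    tM ι M ⟨vj L d, h⟩ = algebraMap Holo Mer (jdHolo d hd) := by
  have : NeZero d := ⟨hd.ne'⟩
  refine tM_of_mem ι (jdHolo d hd) (isAn_jd d hd hdM) ?_
  show HasLaurent 1 (jd d hd) (coeffMap ι (vj L d))
  rw [coeffMap_vj, vj_eq]
  exact hasLaurent_jd_one d hd

omit [IsAlgClosed L] in
theorem tM_algebraMap {M : ℕ} [NeZero M] (c : L) :
    tM ι M (algebraMap L _ c) = algebraMap Holo Mer (constHolo (ι c)) :=
  toMer_algebraMap ι M c

omit [IsAlgClosed L] in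
theorem tM_injective (M : ℕ) [NeZero M] : Injective (tM ι M) := (tM ι M).injective

variable (L) in
omit [Algebra ℚ L] [IsAlgClosed L] in
theorem full_p_le : modularFunctionFieldFullC L p ≤ modularFunctionFieldFullC L (N * p) :=
  full_degeneracyC_le L (Dvd.intro_left N rfl)

variable (L) in
/-- inclusion of level `p` in level `N p` -/
def incP : modularFunctionFieldFullC L p →ₐ[L] modularFunctionFieldFullC L (N * p) :=
  IntermediateField.inclusion (full_p_le L N p)

omit [Algebra ℚ L] [IsAlgClosed L] in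
theorem coe_incP (x : modularFunctionFieldFullC L p) :
    (incP L N p x : LaurentSeries L) = x := IntermediateField.coe_inclusion (full_p_le L N p) x

omit [Algebra ℚ L] [IsAlgClosed L] in
theorem incP_mk {x : LaurentSeries L} (hx : x ∈ modularFunctionFieldFullC L p) :
    incP L N p ⟨x, hx⟩ = ⟨x, full_p_le L N p hx⟩ := Subtype.ext (coe_incP N p _)

/-- `S` -/
def Smat : SL(2, ℤ) := mkSL 0 (-1) 1 0 (by ring)

theorem smat_smul_coe (z : ℍ) : ((Smat • z : ℍ) : ℂ) = -1 / z := by
  rw [coe_SL_smul]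
  simp [Smat]

variable (hNK : (N : L) ≠ 0) (hpK : (p : L) ≠ 0) (hpN : ¬ p ∣ N)

omit [Algebra ℚ L] in
theorem w_incP_one {h : vj L 1 ∈ modularFunctionFieldFullC L p}
    (h' : vj L p ∈ modularFunctionFieldFullC L (N * p)) :
    AtkinLehner.w hNK hpK hpN (incP L N p ⟨vj L 1, h⟩) = ⟨vj L p, h'⟩ := by
  rw [incP_mk]
  apply Subtype.ext
  rw [AtkinLehner.w_vj hNK hpK hpN (one_dvd N), one_mul]

omit [Algebra ℚ L] in
theorem w_incP_p {h : vj L p ∈ modularFunctionFieldFullC L p}
    (h' : vj L 1 ∈ modularFunctionFieldFullC L (N * p)) :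
    AtkinLehner.w hNK hpK hpN (incP L N p ⟨vj L p, h⟩) = ⟨vj L 1, h'⟩ := by
  rw [incP_mk]
  apply Subtype.ext
  have h1 : ∀ (q : ℕ) (hq : q = 1 * p) (h2 : vj L q ∈ modularFunctionFieldFullC L (N * p)),
      (AtkinLehner.w hNK hpK hpN ⟨vj L q, h2⟩ : LaurentSeries L) = vj L 1 := by
    rintro q rfl h2
    exact AtkinLehner.w_vj_mul hNK hpK hpN (one_dvd N) h2
  exact h1 p (one_mul p).symm _

theorem jInv_W (z : ℍ) : Fermat.Agent.JInv.jInv (Smat • scaleH p hp.out.pos z) =
    jd p hp.out.pos z := by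
  rw [Fermat.Agent.JInv.jInv_smul]
  rfl

theorem scale_W (z : ℍ) : scaleH p hp.out.pos (Smat • scaleH p hp.out.pos z) = Smat • z := by
  apply UpperHalfPlane.ext
  rw [coe_scaleH, smat_smul_coe, smat_smul_coe, coe_scaleH]
  have h1 : (p : ℂ) ≠ 0 := by exact_mod_cast hp.out.ne_zero
  have h2 : (z : ℂ) ≠ 0 := z.ne_zero
  field_simp

theorem scHolo_jd_one : scHolo p hp.out.pos (compHolo Smat (jdHolo 1 one_pos)) =
    jdHolo p hp.out.pos := by
  apply Subtype.ext
  funext z
  show jd 1 one_pos (Smat • scaleH p hp.out.pos z) = jd p hp.out.pos z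
  rw [← jInv_eq_jd, jInv_W]

theorem scHolo_jd_p : scHolo p hp.out.pos (compHolo Smat (jdHolo p hp.out.pos)) =
    jdHolo 1 one_pos := by
  apply Subtype.ext
  funext z
  show Fermat.Agent.JInv.jInv (scaleH p hp.out.pos (Smat • scaleH p hp.out.pos z)) =
    jd 1 one_pos z
  rw [← jInv_eq_jd, scale_W, Fermat.Agent.JInv.jInv_smul]

/-- composition with `z ↦ -1/(pz)` -/
def WMer : Mer →+* Mer := (scMer p hp.out.pos).comp (compMer Smat)

theorem WMer_algebraMap (f : Holo) : WMer p (algebraMap Holo Mer f) =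
    algebraMap Holo Mer (scHolo p hp.out.pos (compHolo Smat f)) := by
  rw [WMer, RingHom.comp_apply, compMer_algebraMap, scMer_algebraMap]

theorem tM_w_vj {d : ℕ} (hd : d ∣ p) (h : vj L d ∈ modularFunctionFieldFullC L p) :
    tM ι (N * p) (AtkinLehner.w hNK hpK hpN (incP L N p ⟨vj L d, h⟩)) =
      WMer p (tM ι p ⟨vj L d, h⟩) := by
  have h1 : vj L p ∈ modularFunctionFieldFullC L (N * p) :=
    vj_mem_full L hp.out.ne_zero (Dvd.intro_left N rfl)
  have h2 : vj L 1 ∈ modularFunctionFieldFullC L (N * p) :=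
    vj_mem_full L one_ne_zero (one_dvd _)
  rcases (Nat.dvd_prime hp.out).mp hd with rfl | rfl
  · rw [w_incP_one N p hNK hpK hpN h1, tM_vj ι hp.out.pos (Dvd.intro_left N rfl),
      tM_vj ι one_pos (one_dvd p), WMer_algebraMap, scHolo_jd_one]
  · rw [w_incP_p N d hNK hpK hpN h2, tM_vj ι one_pos (one_dvd _),
      tM_vj ι hp.out.pos dvd_rfl, WMer_algebraMap, scHolo_jd_p]

/-- `w_p` is the composition with `z ↦ -1/(pz)` on the field of level `p`. -/
theorem tM_w (x : modularFunctionFieldFullC L p) :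
    tM ι (N * p) (AtkinLehner.w hNK hpK hpN (incP L N p x)) = WMer p (tM ι p x) := by
  have key : ((tM ι (N * p)).comp
      ((AtkinLehner.w hNK hpK hpN : modularFunctionFieldFullC L (N * p) →+*
        modularFunctionFieldFullC L (N * p)).comp (incP L N p : modularFunctionFieldFullC L p →+*
        modularFunctionFieldFullC L (N * p)))) =
      (WMer p).comp (tM ι p) := by
    refine AtkinLehner.ringHom_ext _ _ (fun c => ?_) (fun d hd hd0 => ?_)
    · show tM ι (N * p) (AtkinLehner.w hNK hpK hpN (incP L N p (algebraMap L _ c))) =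
        WMer p (tM ι p (algebraMap L _ c))
      rw [AlgHom.commutes, AlgEquiv.commutes, tM_algebraMap, tM_algebraMap, WMer_algebraMap]
      rfl
    · exact tM_w_vj ι N p hNK hpK hpN hd _
  exact DFunLike.congr_fun key x

omit hp in
/-- change of level -/
theorem isAn_level {f : ℍ → ℂ} [NeZero p] (hf : IsAn p f) : IsAn (N * p) f := by
  refine ⟨hf.hol, fun γ => ?_, fun γ hγ τ => ?_⟩
  · obtain ⟨y, hy⟩ := hf.exp γ
    have h2 := hy.subst (h' := ((N * p : ℕ) : ℝ)) id 1 N (by
      intro τ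
      rw [Units.val_one, one_mul, id]
      have h3 : ((p : ℕ) : ℝ) ≠ 0 := by exact_mod_cast NeZero.ne p
      have := qParam_mul_width (h := (p : ℝ)) h3 N (τ : ℂ)
      rw [Nat.cast_mul]
      exact this.symm)
    exact ⟨_, h2⟩
  · refine hf.inv γ ?_ τ
    rw [CongruenceSubgroup.Gamma0_mem, ZMod.intCast_zmod_eq_zero_iff_dvd] at hγ ⊢
    exact (Int.natCast_dvd_natCast.mpr (Dvd.intro_left N rfl)).trans hγ

include ι in
theorem uL_mem_p : uL L p ∈ modularFunctionFieldFullC L p := by
  rw [← HeckeRed.laurentBaseChange_full L p]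
  exact uL_mem ι p

/-- the modular unit `Δ(τ)/Δ(pτ)` at level `N p` -/
def u0 : modularFunctionFieldFullC L (N * p) := incP L N p ⟨uL L p, uL_mem_p ι p⟩

theorem coe_u0 : (u0 ι N p : LaurentSeries L) = uL L p := coe_incP N p _

theorem tM_uL (h : uL L p ∈ modularFunctionFieldFullC L p) :
    tM ι p ⟨uL L p, h⟩ = algebraMap Holo Mer (uHolo p) := by
  refine tM_of_mem ι (uHolo p) (isAn_uFn p _) ?_
  show HasLaurent 1 _ (coeffMap ι (uL L p))
  rw [coeffMap_uL]
  exact hasLaurent_uFn p _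

theorem uHolo_W (z : ℍ) : (scHolo p hp.out.pos (compHolo Smat (uHolo p)) : ℍ → ℂ) z *
    (uHolo p : ℍ → ℂ) z = (p : ℂ) ^ 12 := by
  show uFn p _ (Smat • scaleH p hp.out.pos z) * uFn p _ z = _
  rw [uFn, uFn, scale_W, disc_smul, disc_smul, coe_scaleH]
  have h1 : ModularForm.discriminant z ≠ 0 := ModularForm.discriminant_ne_zero z
  have h2 : ModularForm.discriminant (scaleH p hp.out.pos z) ≠ 0 :=
    ModularForm.discriminant_ne_zero _
  have h3 : (z : ℂ) ≠ 0 := z.ne_zero
  have e1 : ((Smat 1 0 : ℤ) : ℂ) = 1 := by simp [Smat]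
  have e2 : ((Smat 1 1 : ℤ) : ℂ) = 0 := by simp [Smat]
  rw [e1, e2, one_mul, one_mul, add_zero, add_zero]
  field_simp

/-- **`w_p u₀ = p¹² / u₀`.** -/
theorem w_u0 : AtkinLehner.w hNK hpK hpN (u0 ι N p) * u0 ι N p =
    algebraMap L (modularFunctionFieldFullC L (N * p)) ((p : L) ^ 12) := by
  apply (tM ι (N * p)).injective
  rw [map_mul, tM_algebraMap]
  have h1 : tM ι (N * p) (u0 ι N p) = algebraMap Holo Mer (uHolo p) := by
    refine tM_of_mem ι (uHolo p) ?_ ?_
    · exact isAn_level N p (isAn_uFn p (Nat.pos_of_ne_zero (NeZero.ne p)))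
    · rw [coe_u0, coeffMap_uL]
      exact hasLaurent_uFn p _
  rw [h1, u0, tM_w, tM_uL, WMer_algebraMap, ← map_mul]
  congr 1
  apply Subtype.ext
  funext z
  refine (uHolo_W p z).trans ?_
  show _ = ι ((p : L) ^ 12)
  rw [map_pow, map_natCast]

end Fermat.Agent.LLu
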